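import Fermat.Agent.S26.Ample.Spec
import Fermat.Agent.S26.H126.GroupCalc

/-!
# Row S26, block AMPLE, leaf AM-CV (helper73): `Stmt.Cover`

For a nonempty open `U` of an abelian variety `A` over an algebraically closed field `K`, the
sets `(U - x) ∩ (U + x)`, `x ∈ A(K)`, cover `A` (every point, closed or not).

Proof.  Let `y₀` be a closed point in the closure of `y` (`A` is quasi-compact).  It is a
`K`-point.  The opens `T_{y₀}⁻¹ U` and `(T_{y₀} ∘ [-1])⁻¹ U` are nonempty, `A` is irreducible and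
Jacobson, so their intersection contains a closed point, i.e. a `K`-point `x`.  By commutativity
`T_x y₀ = T_{y₀} x ∈ U` and `T_{-x} y₀ = T_{y₀} (-x) ∈ U`; the open `T_x⁻¹ U ∩ T_{-x}⁻¹ U`
contains `y₀`, hence its generisation `y`.
-/

set_option autoImplicit false
universe u

open CategoryTheory CategoryTheory.Limits AlgebraicGeometry NeronModelInfra GoodReductionJacobian

namespace Fermat.Agent.S26.Ample.H73

variable {K : Type u} [Field K]

theorem transl_eq_h126 (X : AbVar K) (x : X.Pt) : X.transl x = H126.transl X.law x := rfl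

theorem negHom_eq_h126 (X : AbVar K) : X.negHom = H126.negHom X.law := rfl

/-- `T_x ∘ y = T_y ∘ x` on `K`-points. -/
theorem pt_comp_transl_comm (X : AbVar K) (x y : X.Pt) :
    y.1 ≫ X.transl x = x.1 ≫ X.transl y := by
  rw [transl_eq_h126, transl_eq_h126, H126.pt_comp_transl, H126.pt_comp_transl,
    X.comm _ y x]

/-- `T_{-x} ∘ y = T_y ∘ [-1] ∘ x` on `K`-points. -/
theorem pt_comp_transl_negPt (X : AbVar K) (x y : X.Pt) :
    y.1 ≫ X.transl (X.negPt x) = x.1 ≫ X.negHom ≫ X.transl y := by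
  rw [pt_comp_transl_comm, ← Category.assoc]
  congr 1
  exact H126.law_inv_coe X.law x

variable [IsAlgClosed K]

theorem cover : Stmt.Cover K := by
  intro X _ U hU y
  have : IsProper X.str := X.bundle.proper
  have : LocallyOfFiniteType X.str := inferInstance
  have : JacobsonSpace X.A := LocallyOfFiniteType.jacobsonSpace X.str
  have : CompactSpace X.A := QuasiCompact.compactSpace_of_compactSpace X.str
  -- a closed point `y₀` in the closure of `y`
  obtain ⟨y₀, hy₀, hy₀c⟩ :=
    (isClosed_closure (s := ({y} : Set X.A))).exists_closed_singleton ⟨y, subset_closure rfl⟩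
  have hspec : y ⤳ y₀ := specializes_iff_mem_closure.mpr hy₀
  -- `y₀` as a `K`-point
  let P₀ : X.Pt := ⟨pointOfClosedPoint X.str y₀ hy₀c, pointOfClosedPoint_comp X.str y₀ hy₀c⟩
  have hP₀ : ∀ a, P₀.1 a = y₀ := fun a => pointOfClosedPoint_apply X.str y₀ hy₀c a
  -- the two nonempty opens
  have : IsIso (X.transl P₀) := by rw [transl_eq_h126]; infer_instance
  have : IsIso X.negHom := by rw [negHom_eq_h126]; infer_instance
  let V₁ : X.A.Opens := (X.transl P₀) ⁻¹ᵁ U
  let V₂ : X.A.Opens := (X.negHom ≫ X.transl P₀) ⁻¹ᵁ U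
  obtain ⟨u, hu⟩ := hU
  have hV₁ : (V₁ : Set X.A).Nonempty := by
    obtain ⟨v, hv⟩ := (X.transl P₀).surjective u
    exact ⟨v, by show X.transl P₀ v ∈ U; rw [hv]; exact hu⟩
  have hV₂ : (V₂ : Set X.A).Nonempty := by
    obtain ⟨v, hv⟩ := (X.negHom ≫ X.transl P₀).surjective u
    exact ⟨v, by show (X.negHom ≫ X.transl P₀) v ∈ U; rw [hv]; exact hu⟩
  have hne : ((V₁ : Set X.A) ∩ V₂).Nonempty :=
    (PreirreducibleSpace.isPreirreducible_univ (X := X.A)) V₁ V₂ V₁.2 V₂.2
      (by simpa using hV₁) (by simpa using hV₂) |>.imp fun z hz => hz.2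
  obtain ⟨x₀, ⟨hx₁, hx₂⟩, hx₀c⟩ :=
    nonempty_inter_closedPoints hne (V₁.2.inter V₂.2).isLocallyClosed
  let P : X.Pt := ⟨pointOfClosedPoint X.str x₀ hx₀c, pointOfClosedPoint_comp X.str x₀ hx₀c⟩
  have hP : ∀ a, P.1 a = x₀ := fun a => pointOfClosedPoint_apply X.str x₀ hx₀c a
  refine ⟨P, ?_, ?_⟩
  · refine hspec.mem_open ((X.transl P) ⁻¹ᵁ U).2 ?_
    show X.transl P y₀ ∈ U
    have h := congrArg (fun φ : Spec (CommRingCat.of K) ⟶ X.A => φ (IsLocalRing.closedPoint K))
      (pt_comp_transl_comm X P P₀)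
    simp only [Scheme.Hom.comp_apply, hP₀, hP] at h
    rw [h]
    exact hx₁
  · refine hspec.mem_open ((X.transl (X.negPt P)) ⁻¹ᵁ U).2 ?_
    show X.transl (X.negPt P) y₀ ∈ U
    have h := congrArg (fun φ : Spec (CommRingCat.of K) ⟶ X.A => φ (IsLocalRing.closedPoint K))
      (pt_comp_transl_negPt X P P₀)
    simp only [Scheme.Hom.comp_apply, hP₀, hP] at h
    rw [h]
    exact hx₂

end Fermat.Agent.S26.Ample.H73
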